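/-
LSb / Count / Fibre  (helper5)

Exact fibre cardinalities of `j̄ : X₀(N)_k → ℙ¹_k` in characteristic `ℓ ≥ 5`, `ℓ ∤ N`:
the fibres of `j̄` over `b̄` have exactly as many points as the fibres of `j` over a lift `b`
(squeeze: Riemann–Hurwitz lower bound in characteristic `ℓ`, the exact characteristic-0 count,
equality of genera, and `#fibre_k ≤ #fibre_0` termwise).  Hence
`#Z(j̄ - b) = ψ(N)` for `b ≠ 0, 1728`, `3 #Z(j̄) = ψ + 2ν₃`, `2 #Z(j̄ - 1728) = ψ + ν₂`.
-/
import Mathlib
import Fermat.Agent.S18lib.G.FiveLe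
import Fermat.Agent.S37lib.B3.Inst

set_option autoImplicit false
set_option linter.style.haveILetI false
set_option linter.unusedSectionVars false

noncomputable section

namespace Fermat.Agent.LSb.Count

open AlgebraicCurve ModularCurve IntermediateField Polynomial Module
open Fermat.Agent.ProgramR Fermat.Agent.ProgramR.RR Fermat.Agent.S18lib

/-! ### The abstract squeeze -/

section Abstract

variable {L : Type*} [Field L] {A : ValuationSubring L}
variable {F : Type*} [Field F] [Algebra L F]
variable {Fk : Type*} [Field Fk] [Algebra (IsLocalRing.ResidueField A) Fk]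
variable (D : RedDatum A F Fk)
variable [HasPrincipalDivisors L F] [HasPrincipalDivisors (IsLocalRing.ResidueField A) Fk]

local notation "k" => IsLocalRing.ResidueField A

/-- **Equality of fibre cardinalities under reduction** when the two genera agree and the
characteristic-zero side is tame with all finite branch values in `S`. -/
theorem card_zerosOf_eq_of_tame (hdeg : ∀ Q : Place k Fk, 0 < Q.deg) {y : F} (hyO : y ∈ D.O)
    (hpres : Divisor.degree (Tame.poleDiv (K := L) y) =
      Divisor.degree (Tame.poleDiv (K := k) (D.redF y)))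
    (hnc : ∀ c : A, D.redF y ≠ algebraMap k Fk (IsLocalRing.residue A c))
    (S : Finset A) (hinj : Set.InjOn (IsLocalRing.residue A) (S : Set A)) {n g : ℕ}
    (h0 : 2 * (g : ℤ) - 2 ≤
      (∑ a ∈ S, ((n : ℤ) -
        Nat.card (Tame.zerosOf (K := L) (y - algebraMap L F ((a : A) : L)))))
        + ((n : ℤ) - Nat.card (Tame.polesOf (K := L) y)) - 2 * (n : ℤ))
    (hk : Tame.RHLower k (D.redF y) n g) :
    ∀ a ∈ S, Nat.card (Tame.zerosOf (K := k)
        (D.redF y - algebraMap k Fk (IsLocalRing.residue A a))) =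
      Nat.card (Tame.zerosOf (K := L) (y - algebraMap L F ((a : A) : L))) := by
  classical
  have hy : D.redF y ≠ 0 := by
    have := hnc 0
    rwa [map_zero, map_zero] at this
  have hk' := hk (S.image (IsLocalRing.residue A))
  rw [Finset.sum_image hinj] at hk'
  have hle : ∀ a ∈ S, (Nat.card (Tame.zerosOf (K := k)
        (D.redF y - algebraMap k Fk (IsLocalRing.residue A a))) : ℤ) ≤
      Nat.card (Tame.zerosOf (K := L) (y - algebraMap L F ((a : A) : L))) := by
    intro a _
    exact_mod_cast Tame.card_zerosOf_le D hdeg hyO hpres a (hnc a)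
  have hpol : (Nat.card (Tame.polesOf (K := k) (D.redF y)) : ℤ) ≤
      Nat.card (Tame.polesOf (K := L) y) := by
    exact_mod_cast Tame.card_polesOf_le D hdeg hy hpres
  -- the sum of the (nonnegative) defects is `≤ 0`
  have hsum : ∑ a ∈ S, ((Nat.card (Tame.zerosOf (K := L) (y - algebraMap L F ((a : A) : L))) : ℤ) -
      Nat.card (Tame.zerosOf (K := k)
        (D.redF y - algebraMap k Fk (IsLocalRing.residue A a)))) ≤ 0 := by
    have e : ∑ a ∈ S, ((Nat.card (Tame.zerosOf (K := L) (y - algebraMap L F ((a : A) : L))) : ℤ) -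
        Nat.card (Tame.zerosOf (K := k)
          (D.redF y - algebraMap k Fk (IsLocalRing.residue A a)))) =
        (∑ a ∈ S, ((n : ℤ) - Nat.card (Tame.zerosOf (K := k)
          (D.redF y - algebraMap k Fk (IsLocalRing.residue A a))))) -
        ∑ a ∈ S, ((n : ℤ) -
          Nat.card (Tame.zerosOf (K := L) (y - algebraMap L F ((a : A) : L)))) := by
      rw [← Finset.sum_sub_distrib]
      exact Finset.sum_congr rfl fun a _ => by ring
    rw [e]
    linarith
  have hzero := (Finset.sum_eq_zero_iff_of_nonneg (fun a ha => sub_nonneg.mpr (hle a ha))).mp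
    (le_antisymm hsum (Finset.sum_nonneg fun a ha => sub_nonneg.mpr (hle a ha)))
  intro a ha
  have := hzero a ha
  omega

end Abstract

/-! ### The modular curve `X₀(N)` in characteristic `ℓ ≥ 5` -/

section Modular

variable (N : ℕ) [NeZero N] {ℓ : ℕ} [Fact ℓ.Prime]
variable (A : ValuationSubring (AlgebraicClosure ℚ))

local notation "Qb" => AlgebraicClosure ℚ

theorem natCast_1728_ne_zero (hA : A.LiesOverPrime ℓ) (h5 : 5 ≤ ℓ) :
    ((1728 : ℕ) : kRes A) ≠ 0 := by
  refine Gink.natCast_ne_zero_kRes hA fun hdvd => ?_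
  have hℓ : ℓ.Prime := Fact.out
  have h2 : ℓ ∣ 2 ^ 6 * 3 ^ 3 := by norm_num; exact hdvd
  rcases (Nat.Prime.dvd_mul hℓ).mp h2 with h2 | h3
  · have := (Nat.prime_dvd_prime_iff_eq hℓ Nat.prime_two).mp (hℓ.dvd_of_dvd_pow h2)
    omega
  · have := (Nat.prime_dvd_prime_iff_eq hℓ Nat.prime_three).mp (hℓ.dvd_of_dvd_pow h3)
    omega

theorem ofNat_1728_ne_zero (hA : A.LiesOverPrime ℓ) (h5 : 5 ≤ ℓ) : (1728 : kRes A) ≠ 0 := by
  have := natCast_1728_ne_zero A hA h5
  intro h0
  apply this
  rw [← h0]
  norm_num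

/-- **The fibre of `j̄` over `ā` has as many points as the fibre of `j` over `a`**, for every
`a ∈ A` which is `0`, `1728`, or has residue different from `0`, `1728`. -/
theorem card_zerosOf_jK_eq (hℓN : ¬ ℓ ∣ N) (hA : A.LiesOverPrime ℓ) (h5 : 5 ≤ ℓ) (a : A)
    (ha0 : IsLocalRing.residue A a = 0 → a = 0)
    (ha1 : IsLocalRing.residue A a = 1728 → a = 1728) :
    Nat.card (Tame.zerosOf (K := kRes A)
        (Gink.jK A N - algebraMap (kRes A) (FRes A N) (IsLocalRing.residue A a))) =
      Nat.card (Tame.zerosOf (K := Qb) (Gin0.jF N - algebraMap Qb (FBar N) ((a : A) : Qb))) := by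
  classical
  have h := S37lib.B3.reductionInputsModL N A hℓN hA
  -- characteristic 0 side
  obtain ⟨g, hF, hg⟩ := Gin0.exists_isCurveOfGenus_FBar N
  -- characteristic ℓ side
  have hx : Transcendental (kRes A) (Gink.jK A N) := Gink.transcendental_jK A N
  haveI : Algebra.IsSeparable (kRes A)⟮Gink.jK A N⟯ (FRes A N) := Gink.isSeparable_jK A N hA hℓN
  have hFk : IsCurveOfGenus (kRes A) (FRes A N) (RRgen.Canonical.genusOf (kRes A) hx) :=
    RRgen.Canonical.isCurveOfGenus_genusOf (kRes A) hx
  have hkk := RRgen.Canonical.rhLower_genusOf (kRes A) hx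
  rw [Gink.finrank_jK A N hA hℓN] at hkk
  -- equality of genera
  obtain ⟨g', hF', hFk'⟩ := G.exists_genus_of_five_le N A hℓN hA h h5
  have hgg : RRgen.Canonical.genusOf (kRes A) hx = g := by
    rw [RRgen.Canonical.genus_unique hFk hFk', RRgen.Canonical.genus_unique hF hF']
  rw [hgg] at hkk
  letI := hF.hasPrincipalDivisors
  letI := hFk.hasPrincipalDivisors
  -- the datum
  set D := V.datum N A hℓN hA h with hD
  have hyO : Gin0.jF N ∈ D.O := G.jF_mem_datum_O N A hℓN hA h
  have hred : D.redF (Gin0.jF N) = Gink.jK A N := G.datum_redF_jF N A hℓN hA h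
  have hpres : Divisor.degree (Tame.poleDiv (K := Qb) (Gin0.jF N)) =
      Divisor.degree (Tame.poleDiv (K := kRes A) (D.redF (Gin0.jF N))) := by
    rw [hred, Gin0.degree_poleDiv_jF N, G.degree_poleDiv_of_transcendental (kRes A) hx,
      Gink.finrank_jK A N hA hℓN]
  have hnc : ∀ c : A, D.redF (Gin0.jF N) ≠
      algebraMap (kRes A) (FRes A N) (IsLocalRing.residue A c) := by
    intro c hc
    rw [hred] at hc
    exact hx (hc ▸ isAlgebraic_algebraMap _)
  have hdeg : ∀ Q : Place (kRes A) (FRes A N), 0 < Q.deg := fun Q => by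
    rw [hFk.deg_eq_one]; exact one_pos
  -- the branch values
  have h1728 : (1728 : kRes A) ≠ 0 := ofNat_1728_ne_zero A hA h5
  have hres : IsLocalRing.residue A (1728 : A) = 1728 := map_ofNat _ _
  have hA1728 : (1728 : A) ≠ 0 := by
    intro h0
    apply h1728
    rw [← hres, h0, map_zero]
  have hinj : Set.InjOn (IsLocalRing.residue A) (({0, 1728, a} : Finset A) : Set A) := by
    intro x hx' y hy' hxy
    simp only [Finset.coe_insert, Finset.coe_singleton, Set.mem_insert_iff,
      Set.mem_singleton_iff] at hx' hy'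
    rcases hx' with rfl | rfl | rfl <;> rcases hy' with rfl | rfl | rfl
    · rfl
    · rw [map_zero, hres] at hxy; exact absurd hxy.symm h1728
    · rw [map_zero] at hxy; exact (ha0 hxy.symm).symm
    · rw [map_zero, hres] at hxy; exact absurd hxy h1728
    · rfl
    · rw [hres] at hxy; exact (ha1 hxy.symm).symm
    · rw [map_zero] at hxy; exact ha0 hxy
    · rw [hres] at hxy; exact ha1 hxy
    · rfl
  -- the characteristic-0 count, with the extra (unramified) value `a`
  have hc := Gin0.rh_count N hg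
  have hne : (0 : Qb) ∉ ({1728} : Finset Qb) := by
    rw [Finset.mem_singleton]; norm_num
  rw [Finset.sum_insert hne, Finset.sum_singleton] at hc
  have e0 : ((0 : A) : Qb) = 0 := rfl
  have e1 : ((1728 : A) : Qb) = 1728 := rfl
  have h0 : 2 * (g : ℤ) - 2 ≤
      (∑ b ∈ ({0, 1728, a} : Finset A), ((dedekindPsi N : ℤ) -
        Nat.card (Tame.zerosOf (K := Qb) (Gin0.jF N - algebraMap Qb (FBar N) ((b : A) : Qb)))))
      + ((dedekindPsi N : ℤ) - Nat.card (Tame.polesOf (K := Qb) (Gin0.jF N)))
      - 2 * (dedekindPsi N : ℤ) := by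
    by_cases hae : a = 0 ∨ a = 1728
    · have hS : ({0, 1728, a} : Finset A) = {0, 1728} := by
        rcases hae with rfl | rfl
        · ext x; simp only [Finset.mem_insert, Finset.mem_singleton]; tauto
        · ext x; simp only [Finset.mem_insert, Finset.mem_singleton]; tauto
      have hneA : (0 : A) ∉ ({1728} : Finset A) := by
        rw [Finset.mem_singleton]; exact fun h => hA1728 h.symm
      rw [hS, Finset.sum_insert hneA, Finset.sum_singleton, e0, e1]
      exact hc.le
    · rw [not_or] at hae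
      have hn1 : (0 : A) ∉ ({1728, a} : Finset A) := by
        simp only [Finset.mem_insert, Finset.mem_singleton, not_or]
        exact ⟨fun h => hA1728 h.symm, fun h => hae.1 h.symm⟩
      have hn2 : (1728 : A) ∉ ({a} : Finset A) := by
        rw [Finset.mem_singleton]; exact fun h => hae.2 h.symm
      rw [Finset.sum_insert hn1, Finset.sum_insert hn2, Finset.sum_singleton, e0, e1]
      have haQ0 : ((a : A) : Qb) ≠ 0 := fun h => hae.1 (Subtype.ext h)
      have haQ1 : ((a : A) : Qb) ≠ 1728 := fun h => hae.2 (Subtype.ext h)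
      have hgen := Gin0.card_fibre_jF N ((a : A) : Qb) haQ0 haQ1
      have hgen' : (Nat.card (Tame.zerosOf (K := Qb)
          (Gin0.jF N - algebraMap Qb (FBar N) ((a : A) : Qb))) : ℤ) = dedekindPsi N := by
        exact_mod_cast hgen
      rw [hgen']
      linarith
  have hk : Tame.RHLower (kRes A) (D.redF (Gin0.jF N)) (dedekindPsi N) g := by
    rw [hred]; exact hkk
  have key := card_zerosOf_eq_of_tame D hdeg hyO hpres hnc ({0, 1728, a} : Finset A) hinj h0 hk a
    (by simp)
  rw [hred] at key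
  exact key

/-- generic fibres of `j̄` have `ψ(N)` points. -/
theorem card_zerosOf_jK_sub (hℓN : ¬ ℓ ∣ N) (hA : A.LiesOverPrime ℓ) (h5 : 5 ≤ ℓ) (b : kRes A)
    (hb0 : b ≠ 0) (hb1 : b ≠ 1728) :
    Nat.card (Tame.zerosOf (K := kRes A) (Gink.jK A N - algebraMap (kRes A) (FRes A N) b)) =
      dedekindPsi N := by
  obtain ⟨a, rfl⟩ := IsLocalRing.residue_surjective b
  have ha0 : a ≠ 0 := by rintro rfl; exact hb0 (map_zero _)
  have ha1 : a ≠ 1728 := by rintro rfl; exact hb1 (map_ofNat _ _)
  rw [card_zerosOf_jK_eq N A hℓN hA h5 a (fun h => absurd h hb0) (fun h => absurd h hb1)]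
  exact Gin0.card_fibre_jF N ((a : A) : Qb) (fun h => ha0 (Subtype.ext h))
    (fun h => ha1 (Subtype.ext h))

/-- the fibre of `j̄` over `0`. -/
theorem three_mul_card_zerosOf_jK (hℓN : ¬ ℓ ∣ N) (hA : A.LiesOverPrime ℓ) (h5 : 5 ≤ ℓ) :
    3 * Nat.card (Tame.zerosOf (K := kRes A) (Gink.jK A N)) =
      dedekindPsi N + 2 * nuThree N := by
  have h := card_zerosOf_jK_eq N A hℓN hA h5 0 (fun _ => rfl) (fun h => by
    exfalso
    rw [map_zero] at h
    exact ofNat_1728_ne_zero A hA h5 h.symm)
  have e0 : ((0 : A) : Qb) = 0 := rfl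
  rw [map_zero, map_zero, sub_zero, e0] at h
  rw [h]
  exact Gin0.three_mul_card_fibre_jF_zero N

/-- the fibre of `j̄` over `1728`. -/
theorem two_mul_card_zerosOf_jK_sub (hℓN : ¬ ℓ ∣ N) (hA : A.LiesOverPrime ℓ) (h5 : 5 ≤ ℓ) :
    2 * Nat.card (Tame.zerosOf (K := kRes A)
        (Gink.jK A N - algebraMap (kRes A) (FRes A N) 1728)) =
      dedekindPsi N + nuTwo N := by
  have hres : IsLocalRing.residue A (1728 : A) = 1728 := map_ofNat _ _
  have h := card_zerosOf_jK_eq N A hℓN hA h5 1728 (fun h => by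
    exfalso
    rw [hres] at h
    exact ofNat_1728_ne_zero A hA h5 h) (fun _ => rfl)
  have e1 : ((1728 : A) : Qb) = 1728 := rfl
  rw [hres, e1] at h
  rw [h]
  exact Gin0.two_mul_card_fibre_jF_1728 N

end Modular

end Fermat.Agent.LSb.Count
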