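/-
LSb / Count / HasseAlg  (helper5)

Pure algebra: an isobaric polynomial `F ∈ κ[X,Y]` (weights `4, 6`) of weight `12 m + 4 d + 6 e`
(`d, e ≤ 1`) is `X^d Y^e Δ^m b(j)` with `Δ = (X³ - Y²)/1728`, `j = X³/Δ`, for a polynomial
`b ∈ κ[T]` of degree `≤ m` (`deh`), and conversely `Δ^n p(j)` is a polynomial for `deg p ≤ n`
(`hom`).  If `F` has no square factor and value `1` at the cusp `(1,1)`, then `b` is monic of degree
`m`, has no multiple root, and `b(0) b(1728) ≠ 0`.
-/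
import Mathlib
import Fermat.Agent.S16lib.SwDAlg

set_option autoImplicit false

noncomputable section

namespace Fermat.Agent.LSb.Count

open MvPolynomial Fermat.Agent.S16lib.SwD

variable {κ : Type*} [Field κ]

/-- the normalised discriminant polynomial `Δ = (X³ - Y²)/1728`. -/
def DlN : MvPolynomial (Fin 2) κ := C ((1728 : κ)⁻¹) * Dl

theorem monomial_eq_XX_YY (s : Fin 2 →₀ ℕ) (c : κ) :
    (monomial s c : MvPolynomial (Fin 2) κ) = C c * XX ^ (s 0) * YY ^ (s 1) := by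
  rw [monomial_eq, Finsupp.prod_fintype _ _ (fun i => by simp), Fin.prod_univ_two, mul_assoc]

section Phi

variable {K' : Type*} [Field K'] [Algebra κ K'] (φ : MvPolynomial (Fin 2) κ →ₐ[κ] K')

/-- the `j`-invariant `X³/Δ` in the target of `φ`. -/
def jphi : K' := φ XX ^ 3 / φ DlN

theorem phi_C (c : κ) : φ (C c) = algebraMap κ K' c := by
  have : (C c : MvPolynomial (Fin 2) κ) = algebraMap κ _ c := rfl
  rw [this, AlgHom.commutes]

theorem phi_DlN (h1728 : (1728 : κ) ≠ 0) : 1728 * φ DlN = φ XX ^ 3 - φ YY ^ 2 := by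
  rw [DlN, map_mul, phi_C, Dl, map_sub, map_pow, map_pow, ← mul_assoc]
  have : (1728 : K') * algebraMap κ K' ((1728 : κ)⁻¹) = 1 := by
    rw [← map_ofNat (algebraMap κ K') 1728, ← map_mul, mul_inv_cancel₀ h1728, map_one]
  rw [this, one_mul]

theorem jphi_mul (hδ : φ DlN ≠ 0) : jphi φ * φ DlN = φ XX ^ 3 := div_mul_cancel₀ _ hδ

theorem jphi_sub_mul (h1728 : (1728 : κ) ≠ 0) (hδ : φ DlN ≠ 0) :
    (jphi φ - 1728) * φ DlN = φ YY ^ 2 := by
  rw [sub_mul, jphi_mul φ hδ, phi_DlN φ h1728]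
  ring

end Phi

/-! ### Dehomogenisation -/

/-- the dehomogenisation of an isobaric polynomial of weight `12 m + 4 d + 6 e`. -/
def deh (d e : ℕ) (F : MvPolynomial (Fin 2) κ) : Polynomial κ :=
  F.support.sum fun s => Polynomial.C (coeff s F) * Polynomial.X ^ ((s 0 - d) / 3) *
    (Polynomial.X - Polynomial.C 1728) ^ ((s 1 - e) / 2)

theorem exps_of_weight {m d e : ℕ} (hd : d ≤ 1) (he : e ≤ 1) {s : Fin 2 →₀ ℕ}
    (hs : Finsupp.weight wt s = 12 * m + 4 * d + 6 * e) :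
    s 0 = d + 3 * ((s 0 - d) / 3) ∧ s 1 = e + 2 * ((s 1 - e) / 2) ∧
      (s 0 - d) / 3 + (s 1 - e) / 2 = m := by
  rw [weight_eq] at hs
  omega

section Phi

variable {K' : Type*} [Field K'] [Algebra κ K'] (φ : MvPolynomial (Fin 2) κ →ₐ[κ] K')

/-- **(★)**: `φ F = φ(X)^d φ(Y)^e φ(Δ)^m · b(j)` with `b = deh d e F`. -/
theorem phi_eq_deh (h1728 : (1728 : κ) ≠ 0) (hδ : φ DlN ≠ 0) {m d e : ℕ} (hd : d ≤ 1)
    (he : e ≤ 1) {F : MvPolynomial (Fin 2) κ} (hF : Iso F (12 * m + 4 * d + 6 * e)) :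
    φ F = φ XX ^ d * φ YY ^ e * φ DlN ^ m * Polynomial.aeval (jphi φ) (deh d e F) := by
  conv_lhs => rw [F.as_sum]
  rw [deh, map_sum, map_sum, Finset.mul_sum]
  refine Finset.sum_congr rfl fun s hs => ?_
  have hw : Finsupp.weight wt s = 12 * m + 4 * d + 6 * e := hF (mem_support_iff.mp hs)
  obtain ⟨h0, h1, hm⟩ := exps_of_weight hd he hw
  set a := (s 0 - d) / 3 with ha
  set b := (s 1 - e) / 2 with hb
  rw [monomial_eq_XX_YY, map_mul, map_mul, map_pow, map_pow, phi_C, map_mul, map_mul, map_pow,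
    map_pow, map_sub, Polynomial.aeval_X, Polynomial.aeval_C, Polynomial.aeval_C,
    map_ofNat (algebraMap κ K') 1728]
  have e0 : φ XX ^ (s 0) = φ XX ^ d * (jphi φ * φ DlN) ^ a := by
    rw [jphi_mul φ hδ, ← pow_mul, ← pow_add, ← h0]
  have e1 : φ YY ^ (s 1) = φ YY ^ e * ((jphi φ - 1728) * φ DlN) ^ b := by
    rw [jphi_sub_mul φ h1728 hδ, ← pow_mul, ← pow_add, ← h1]
  rw [e0, e1, ← hm, pow_add, mul_pow, mul_pow]
  ring

end Phi

/-! ### Degree and leading coefficient of the dehomogenisation -/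

theorem natDegree_deh_term_le (c : κ) (a b : ℕ) :
    (Polynomial.C c * Polynomial.X ^ a * (Polynomial.X - Polynomial.C (1728 : κ)) ^ b).natDegree
      ≤ a + b := by
  refine (Polynomial.natDegree_mul_le).trans ?_
  refine add_le_add ?_ ?_
  · refine (Polynomial.natDegree_C_mul_le _ _).trans ?_
    exact Polynomial.natDegree_X_pow_le a
  · refine (Polynomial.natDegree_pow_le).trans ?_
    rw [Polynomial.natDegree_X_sub_C, mul_one]

theorem coeff_deh_term (c : κ) (a b : ℕ) :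
    (Polynomial.C c * Polynomial.X ^ a * (Polynomial.X - Polynomial.C (1728 : κ)) ^ b).coeff
      (a + b) = c := by
  have hmon : (Polynomial.X ^ a * (Polynomial.X - Polynomial.C (1728 : κ)) ^ b).Monic :=
    (Polynomial.monic_X_pow a).mul ((Polynomial.monic_X_sub_C _).pow b)
  have hdeg : (Polynomial.X ^ a * (Polynomial.X - Polynomial.C (1728 : κ)) ^ b).natDegree
      = a + b := by
    rw [Polynomial.Monic.natDegree_mul (Polynomial.monic_X_pow a)
      ((Polynomial.monic_X_sub_C _).pow b), Polynomial.natDegree_X_pow,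
      Polynomial.Monic.natDegree_pow (Polynomial.monic_X_sub_C _), Polynomial.natDegree_X_sub_C,
      mul_one]
  rw [mul_assoc, Polynomial.coeff_C_mul, ← hdeg, hmon.coeff_natDegree, mul_one]

theorem natDegree_deh_le {m d e : ℕ} (hd : d ≤ 1) (he : e ≤ 1) {F : MvPolynomial (Fin 2) κ}
    (hF : Iso F (12 * m + 4 * d + 6 * e)) : (deh d e F).natDegree ≤ m := by
  rw [deh]
  refine Polynomial.natDegree_sum_le_of_forall_le _ _ fun s hs => ?_
  have hw : Finsupp.weight wt s = 12 * m + 4 * d + 6 * e := hF (mem_support_iff.mp hs)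
  obtain ⟨-, -, hm⟩ := exps_of_weight hd he hw
  rw [← hm]
  exact natDegree_deh_term_le _ _ _

theorem ev11_eq_sum (F : MvPolynomial (Fin 2) κ) : ev11 F = F.support.sum fun s => coeff s F := by
  rw [ev11, aeval_def, eval₂_eq']
  refine Finset.sum_congr rfl fun s _ => ?_
  simp [Fin.prod_univ_two]

theorem coeff_deh {m d e : ℕ} (hd : d ≤ 1) (he : e ≤ 1) {F : MvPolynomial (Fin 2) κ}
    (hF : Iso F (12 * m + 4 * d + 6 * e)) : (deh d e F).coeff m = ev11 F := by
  rw [deh, Polynomial.finsetSum_coeff, ev11_eq_sum]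
  refine Finset.sum_congr rfl fun s hs => ?_
  have hw : Finsupp.weight wt s = 12 * m + 4 * d + 6 * e := hF (mem_support_iff.mp hs)
  obtain ⟨-, -, hm⟩ := exps_of_weight hd he hw
  rw [← hm]
  exact coeff_deh_term _ _ _

theorem monic_deh {m d e : ℕ} (hd : d ≤ 1) (he : e ≤ 1) {F : MvPolynomial (Fin 2) κ}
    (hF : Iso F (12 * m + 4 * d + 6 * e)) (h11 : ev11 F = 1) :
    (deh d e F).Monic ∧ (deh d e F).natDegree = m := by
  have h1 := natDegree_deh_le hd he hF
  have h2 : (deh d e F).coeff m = 1 := by rw [coeff_deh hd he hF, h11]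
  have h3 : (deh d e F).natDegree = m := by
    refine le_antisymm h1 (Polynomial.le_natDegree_of_ne_zero ?_)
    rw [h2]; exact one_ne_zero
  refine ⟨?_, h3⟩
  rw [Polynomial.Monic, Polynomial.leadingCoeff, h3, h2]

/-! ### Homogenisation -/

/-- homogenisation: `Δ^n p(j)` as a polynomial in `X, Y` (for `deg p ≤ n`). -/
def hom (n : ℕ) (p : Polynomial κ) : MvPolynomial (Fin 2) κ :=
  ∑ i ∈ Finset.range (n + 1), C (p.coeff i) * XX ^ (3 * i) * DlN ^ (n - i)

section Phi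

variable {K' : Type*} [Field K'] [Algebra κ K'] (φ : MvPolynomial (Fin 2) κ →ₐ[κ] K')

theorem phi_hom (hδ : φ DlN ≠ 0) {n : ℕ} {p : Polynomial κ} (hp : p.natDegree ≤ n) :
    φ (hom n p) = φ DlN ^ n * Polynomial.aeval (jphi φ) p := by
  rw [hom, map_sum, Polynomial.aeval_eq_sum_range' (Nat.lt_succ_of_le hp), Finset.mul_sum]
  refine Finset.sum_congr rfl fun i hi => ?_
  have hin : i ≤ n := Nat.lt_succ_iff.mp (Finset.mem_range.mp hi)
  rw [map_mul, map_mul, map_pow, map_pow, phi_C, pow_mul, ← jphi_mul φ hδ, mul_pow,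
    Algebra.smul_def]
  have : φ DlN ^ n = φ DlN ^ i * φ DlN ^ (n - i) := by
    rw [← pow_add, Nat.add_sub_cancel' hin]
  rw [this]
  ring

end Phi

/-- the embedding into the fraction field. -/
def phi0 : MvPolynomial (Fin 2) κ →ₐ[κ] FractionRing (MvPolynomial (Fin 2) κ) :=
  IsScalarTower.toAlgHom κ _ _

theorem phi0_injective : Function.Injective (phi0 (κ := κ)) :=
  IsFractionRing.injective (MvPolynomial (Fin 2) κ) (FractionRing (MvPolynomial (Fin 2) κ))

theorem DlN_ne_zero (h1728 : (1728 : κ) ≠ 0) : (DlN : MvPolynomial (Fin 2) κ) ≠ 0 := by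
  rw [DlN]
  refine mul_ne_zero ?_ Dl_ne_zero
  rw [Ne, C_eq_zero]
  exact inv_ne_zero h1728

theorem phi0_DlN_ne_zero (h1728 : (1728 : κ) ≠ 0) : phi0 (κ := κ) DlN ≠ 0 := by
  intro h
  exact DlN_ne_zero h1728 (phi0_injective (by rw [h, map_zero]))

/-- `F = X^d Y^e · hom m (deh d e F)`. -/
theorem eq_mul_hom_deh (h1728 : (1728 : κ) ≠ 0) {m d e : ℕ} (hd : d ≤ 1) (he : e ≤ 1)
    {F : MvPolynomial (Fin 2) κ} (hF : Iso F (12 * m + 4 * d + 6 * e)) :
    F = XX ^ d * YY ^ e * hom m (deh d e F) := by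
  apply phi0_injective
  rw [phi_eq_deh phi0 h1728 (phi0_DlN_ne_zero h1728) hd he hF, map_mul, map_mul, map_pow, map_pow,
    phi_hom phi0 (phi0_DlN_ne_zero h1728) (natDegree_deh_le hd he hF)]
  ring

/-- a linear factor of `p` gives the factor `X³ - aΔ` of `hom`. -/
theorem hom_mul_X_sub_C (h1728 : (1728 : κ) ≠ 0) {n : ℕ} (a : κ) {p : Polynomial κ}
    (hp : p.natDegree ≤ n) :
    hom (n + 1) ((Polynomial.X - Polynomial.C a) * p) = (XX ^ 3 - C a * DlN) * hom n p := by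
  apply phi0_injective
  have hδ := phi0_DlN_ne_zero (κ := κ) h1728
  have hdeg : ((Polynomial.X - Polynomial.C a) * p).natDegree ≤ n + 1 := by
    refine (Polynomial.natDegree_mul_le).trans ?_
    rw [Polynomial.natDegree_X_sub_C]
    omega
  have e := jphi_mul (phi0 (κ := κ)) hδ
  rw [phi_hom phi0 hδ hdeg, map_mul phi0, phi_hom phi0 hδ hp, map_sub phi0, map_mul phi0,
    map_pow phi0, phi_C, map_mul, map_sub, Polynomial.aeval_X,
    Polynomial.aeval_C, ← e]
  ring

/-! ### No square factors -/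

theorem false_of_sq_dvd {F : MvPolynomial (Fin 2) κ}
    (hsq : ∀ C : MvPolynomial (Fin 2) κ, Prime C → ¬ C ^ 2 ∣ F) {G : MvPolynomial (Fin 2) κ}
    (hG0 : G ≠ 0) (hGu : ¬ IsUnit G) (h : G ^ 2 ∣ F) : False := by
  obtain ⟨π, hπ, hπG⟩ := WfDvdMonoid.exists_irreducible_factor hGu hG0
  exact hsq π hπ.prime ((pow_dvd_pow_of_dvd hπG 2).trans h)

theorem iso_X_cube_sub (a : κ) : Iso (XX ^ 3 - C a * DlN : MvPolynomial (Fin 2) κ) 12 := by
  refine IsWeightedHomogeneous.sub (iso_XX.pow 3) ?_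
  rw [DlN]
  exact iso_C_mul (iso_C_mul iso_Dl _) _

theorem ev11_DlN : ev11 (DlN : MvPolynomial (Fin 2) κ) = 0 := by
  simp [ev11, DlN, Dl]

theorem X_cube_sub_ne_zero (a : κ) : (XX ^ 3 - C a * DlN : MvPolynomial (Fin 2) κ) ≠ 0 := by
  intro h
  have := congrArg ev11 h
  rw [map_sub, map_mul, ev11_DlN, mul_zero, sub_zero, map_zero] at this
  simp [ev11] at this

theorem not_isUnit_X_cube_sub (a : κ) : ¬ IsUnit (XX ^ 3 - C a * DlN : MvPolynomial (Fin 2) κ) :=
  RData.not_isUnit_of_iso_pos (iso_X_cube_sub a) (by norm_num) (X_cube_sub_ne_zero a)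

theorem X_cube_sub_1728 (h1728 : (1728 : κ) ≠ 0) :
    (XX ^ 3 - C (1728 : κ) * DlN : MvPolynomial (Fin 2) κ) = YY ^ 2 := by
  rw [DlN, ← mul_assoc, ← map_mul, mul_inv_cancel₀ h1728, map_one, one_mul, Dl]
  ring

/-! ### The dehomogenised Hasse polynomial -/

theorem not_isUnit_XX : ¬ IsUnit (XX : MvPolynomial (Fin 2) κ) :=
  RData.not_isUnit_of_iso_pos iso_XX (by norm_num) (X_ne_zero 0)

theorem not_isUnit_YY : ¬ IsUnit (YY : MvPolynomial (Fin 2) κ) :=
  RData.not_isUnit_of_iso_pos iso_YY (by norm_num) (X_ne_zero 1)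

/-- a root `a` of `b` gives the factor `X³ - aΔ` of `hom (deg b) b`. -/
theorem exists_hom_factor (h1728 : (1728 : κ) ≠ 0) {b : Polynomial κ} (hb0 : b ≠ 0) {a : κ}
    (ha : b.eval a = 0) :
    ∃ H : MvPolynomial (Fin 2) κ, hom b.natDegree b = (XX ^ 3 - C a * DlN) * H := by
  obtain ⟨b', hb'⟩ := Polynomial.dvd_iff_isRoot.mpr ha
  have hb'0 : b' ≠ 0 := by rintro rfl; exact hb0 (by rw [hb', mul_zero])
  have hdeg : b.natDegree = b'.natDegree + 1 := by
    rw [hb', Polynomial.natDegree_mul (Polynomial.X_sub_C_ne_zero a) hb'0,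
      Polynomial.natDegree_X_sub_C, add_comm]
  refine ⟨hom b'.natDegree b', ?_⟩
  rw [hdeg]
  conv_lhs => rw [hb']
  exact hom_mul_X_sub_C h1728 a le_rfl

/-- **Properties of the dehomogenised Hasse polynomial**: no root at `0`, `1728`, no multiple
root. -/
theorem deh_props (h1728 : (1728 : κ) ≠ 0) {m d e : ℕ} (hd : d ≤ 1) (he : e ≤ 1)
    {F : MvPolynomial (Fin 2) κ} (hF : Iso F (12 * m + 4 * d + 6 * e)) (h11 : ev11 F = 1)
    (hsq : ∀ C : MvPolynomial (Fin 2) κ, Prime C → ¬ C ^ 2 ∣ F) :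
    (deh d e F).eval 0 ≠ 0 ∧ (deh d e F).eval 1728 ≠ 0 ∧
      ∀ a : κ, ¬ (Polynomial.X - Polynomial.C a) ^ 2 ∣ deh d e F := by
  obtain ⟨hmon, hdeg⟩ := monic_deh hd he hF h11
  have hb0 : deh d e F ≠ 0 := hmon.ne_zero
  have hFeq := eq_mul_hom_deh h1728 hd he hF
  refine ⟨?_, ?_, ?_⟩
  · intro h0
    obtain ⟨H, hH⟩ := exists_hom_factor h1728 hb0 h0
    rw [hdeg, map_zero, zero_mul, sub_zero] at hH
    refine false_of_sq_dvd hsq (X_ne_zero 0) not_isUnit_XX ⟨XX ^ d * YY ^ e * XX * H, ?_⟩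
    rw [hFeq, hH]
    ring
  · intro h0
    obtain ⟨H, hH⟩ := exists_hom_factor h1728 hb0 h0
    rw [hdeg, X_cube_sub_1728 h1728] at hH
    refine false_of_sq_dvd hsq (X_ne_zero 1) not_isUnit_YY ⟨XX ^ d * YY ^ e * H, ?_⟩
    rw [hFeq, hH]
    ring
  · rintro a ⟨c, hc⟩
    have hc0 : c ≠ 0 := by rintro rfl; exact hb0 (by rw [hc, mul_zero])
    have hdeg2 : m = c.natDegree + 1 + 1 := by
      rw [← hdeg, hc, Polynomial.natDegree_mul (pow_ne_zero 2 (Polynomial.X_sub_C_ne_zero a)) hc0,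
        Polynomial.natDegree_pow, Polynomial.natDegree_X_sub_C]
      ring
    have h1 : ((Polynomial.X - Polynomial.C a) * c).natDegree ≤ c.natDegree + 1 := by
      refine (Polynomial.natDegree_mul_le).trans ?_
      rw [Polynomial.natDegree_X_sub_C]
      omega
    have hH : hom m (deh d e F) =
        (XX ^ 3 - C a * DlN) ^ 2 * hom c.natDegree c := by
      have e1 : deh d e F = (Polynomial.X - Polynomial.C a) * ((Polynomial.X - Polynomial.C a) * c) := by
        rw [hc]; ring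
      rw [hdeg2, e1, hom_mul_X_sub_C h1728 a h1, hom_mul_X_sub_C h1728 a le_rfl]
      ring
    refine false_of_sq_dvd hsq (X_cube_sub_ne_zero a) (not_isUnit_X_cube_sub a)
      ⟨XX ^ d * YY ^ e * hom c.natDegree c, ?_⟩
    rw [hFeq, hH]
    ring

/-- a monic polynomial of degree `m` without multiple roots over an algebraically closed field has
exactly `m` roots. -/
theorem card_roots_of_no_double [IsAlgClosed κ] [DecidableEq κ] {b : Polynomial κ}
    (hsq : ∀ a : κ, ¬ (Polynomial.X - Polynomial.C a) ^ 2 ∣ b) :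
    b.roots.toFinset.card = b.natDegree := by
  have hnodup : b.roots.Nodup := by
    rw [Multiset.nodup_iff_count_le_one]
    intro a
    rw [Polynomial.count_roots]
    by_contra hlt
    push Not at hlt
    exact hsq a ((pow_dvd_pow _ hlt).trans (Polynomial.pow_rootMultiplicity_dvd b a))
  rw [Multiset.toFinset_card_of_nodup hnodup]
  exact (Polynomial.splits_iff_card_roots.mp (IsAlgClosed.splits b))

end Fermat.Agent.LSb.Count
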