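/-
LSb / Count / HasseSeries  (helper5)

The Hasse invariant in characteristic `ℓ ≥ 5` as a function on the `j`-line: over the residue
field `k` of a valuation ring `A ⊂ ℚ̄` above `ℓ`, with `ℓ - 1 = 12 m + 4 d + 6 e`,

  `j̄^(4d) (j̄ - 1728)^(6e) b(j̄)^12 · Δ̄^(ℓ-1) = 1`   in `k((t))`

for a monic polynomial `b ∈ k[T]` of degree `m` without multiple roots and with
`b(0) b(1728) ≠ 0` (the supersingular polynomial away from `0, 1728`).
-/
import Mathlib
import Fermat.Agent.LSb.Count.HasseAlg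
import Fermat.Agent.S16lib.SwDBridge.SwDConst
import Fermat.Agent.S16lib.M5.JPoly
import Fermat.Agent.S18lib.Gink.Bricks
import Fermat.Agent.ProgramR.BarField.Degree

set_option autoImplicit false
set_option linter.style.haveILetI false

noncomputable section

namespace Fermat.Agent.LSb.Count

open MvPolynomial ModularCurve
open UpperHalfPlane ModularForm MatrixGroups CongruenceSubgroup SlashInvariantForm
  ModularFormClass EisensteinSeries
open Fermat.Agent.S16lib Fermat.Agent.S16lib.SwD Fermat.Agent.S16lib.SwDBridge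
open Fermat.Agent.S28lib Fermat.Agent.S18lib

/-! ### Series over a field -/

section Series

variable (κ : Type*) [Field κ]

/-- the Ramanujan data `(Ē₂, Ē₄, Ē₆)` over `κ`. -/
def rdata (h1728 : (1728 : κ) ≠ 0) : RData κ :=
  ⟨Pk κ, Qk κ, Rk κ, constantCoeff_Qk κ, constantCoeff_Rk κ, three_theta_Qk κ, two_theta_Rk κ,
    twelve_theta_Pk κ, order_Qk_cube_sub_Rk_sq κ h1728⟩

/-- evaluation at `(Ē₄, Ē₆)` in Laurent series. -/
def phiL : MvPolynomial (Fin 2) κ →ₐ[κ] LaurentSeries κ :=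
  aeval ![HahnSeries.ofPowerSeries ℤ κ (Qk κ), HahnSeries.ofPowerSeries ℤ κ (Rk κ)]

theorem phiL_XX : phiL κ XX = HahnSeries.ofPowerSeries ℤ κ (Qk κ) := by simp [phiL]

theorem phiL_YY : phiL κ YY = HahnSeries.ofPowerSeries ℤ κ (Rk κ) := by simp [phiL]

theorem phiL_eq (F : MvPolynomial (Fin 2) κ) :
    phiL κ F = HahnSeries.ofPowerSeries ℤ κ (aeval ![Qk κ, Rk κ] F) := by
  induction F using MvPolynomial.induction_on with
  | C a =>
    have h1 : algebraMap κ (PowerSeries κ) a = PowerSeries.C a := by simp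
    rw [phiL, aeval_C, aeval_C, algebraMap_laurent_eq_C, h1, HahnSeries.ofPowerSeries_C]
  | add p q hp hq => rw [map_add, map_add, map_add, hp, hq]
  | mul_X p i hp =>
    rw [map_mul, map_mul, map_mul, hp]
    congr 1
    fin_cases i
    · simp [phiL]
    · simp [phiL]

theorem aeval_DlN (h1728 : (1728 : κ) ≠ 0) :
    aeval ![Qk κ, Rk κ] (DlN : MvPolynomial (Fin 2) κ) =
      PowerSeries.X * dedekindEtaUnit.map (Int.castRingHom κ) := by
  have h1 : aeval ![Qk κ, Rk κ] (Dl : MvPolynomial (Fin 2) κ) = Qk κ ^ 3 - Rk κ ^ 2 := by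
    simp [Dl]
  have h2 : algebraMap κ (PowerSeries κ) ((1728 : κ)⁻¹) * 1728 = 1 := by
    rw [← map_ofNat (algebraMap κ (PowerSeries κ)) 1728, ← map_mul, inv_mul_cancel₀ h1728, map_one]
  rw [DlN, map_mul, aeval_C, h1, Qk_cube_sub_Rk_sq, ← mul_assoc, h2, one_mul]

theorem phiL_DlN (h1728 : (1728 : κ) ≠ 0) : phiL κ DlN = DeltaQ κ := by
  rw [phiL_eq, aeval_DlN κ h1728, map_mul, HahnSeries.ofPowerSeries_X, DeltaQ]

theorem jphi_phiL (h1728 : (1728 : κ) ≠ 0) : jphi (phiL κ) = jqModC κ := by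
  have h := M5.DeltaQ_mul_jqModC κ
  rw [map_pow, ← M5.Qz_eq_eisenstein4, map_pow] at h
  rw [jphi, phiL_DlN κ h1728, phiL_XX, Qk, ← h, mul_div_cancel_left₀ _ (DeltaQ_ne_zero κ)]

end Series

/-! ### Existence of the Hasse polynomial over the residue field -/

section Residue

variable {ℓ : ℕ} [Fact ℓ.Prime] (A : ValuationSubring (AlgebraicClosure ℚ))

local notation "Qb" => AlgebraicClosure ℚ

theorem inv_natCast_mem_of_not_dvd (hA : A.LiesOverPrime ℓ) {n : ℕ} (hn : ¬ ℓ ∣ n) :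
    ((n : Qb))⁻¹ ∈ A := by
  have hmem : (n : Qb) ∈ A := natCast_mem A n
  have hres : IsLocalRing.residue A ⟨(n : Qb), hmem⟩ ≠ 0 := by
    have e : (⟨(n : Qb), hmem⟩ : A) = (n : A) := Subtype.ext (by simp)
    rw [e, map_natCast]
    exact Gink.natCast_ne_zero_kRes hA hn
  have hu : IsUnit (⟨(n : Qb), hmem⟩ : A) := by
    by_contra hnu
    exact hres ((IsLocalRing.residue_eq_zero_iff _).mpr hnu)
  obtain ⟨u, hu⟩ := hu
  have h1 : ((u⁻¹ : Aˣ) : A) * ⟨(n : Qb), hmem⟩ = 1 := by rw [← hu]; exact u.inv_mul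
  have h2 : (((u⁻¹ : Aˣ) : A) : Qb) * (n : Qb) = 1 := by
    have := congrArg Subtype.val h1
    simpa using this
  have h3 : ((n : Qb))⁻¹ = (((u⁻¹ : Aˣ) : A) : Qb) := by
    exact (eq_inv_of_mul_eq_one_left h2).symm
  rw [h3]
  exact Subtype.property _

/-- **the Hasse polynomial over `k`**: isobaric of weight `ℓ - 1` with `Ā(Ē₄, Ē₆) = 1`. -/
theorem exists_hasse_kRes (hA : A.LiesOverPrime ℓ) (h5 : 5 ≤ ℓ) :
    ∃ AH : MvPolynomial (Fin 2) (kRes A), Iso AH (ℓ - 1) ∧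
      aeval ![Qk (kRes A), Rk (kRes A)] AH = 1 := by
  have hℓp : ℓ.Prime := Fact.out
  haveI := Gink.charP_kRes A hA
  -- an embedding `ℚ̄ → ℂ` and the image of `A`
  let ι : Qb →+* ℂ := Fermat.Agent.ProgramR.BarField.qbarEmb
  have hι : Function.Injective ι := ι.injective
  let A' : Subring ℂ := A.toSubring.map ι
  let eqv : A.toSubring ≃+* A' := A.toSubring.equivMapOfInjective ι hι
  let red : A' →+* kRes A := (IsLocalRing.residue A).comp (eqv.symm : A' →+* A.toSubring)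
  have hA' : ∀ n : ℕ, ¬ ℓ ∣ n → ((n : ℂ))⁻¹ ∈ A' := by
    intro n hn
    refine Subring.mem_map.mpr ⟨((n : Qb))⁻¹, inv_natCast_mem_of_not_dvd A hA hn, ?_⟩
    rw [map_inv₀, map_natCast]
  have h1728A : (1728 : ℂ)⁻¹ ∈ A' := by
    have := hA' 1728 (fun hdvd => by
      have h2 : ℓ ∣ 2 ^ 6 * 3 ^ 3 := by norm_num; exact hdvd
      rcases (Nat.Prime.dvd_mul hℓp).mp h2 with h | h
      · have := Nat.le_of_dvd (by norm_num) (hℓp.dvd_of_dvd_pow h); omega
      · have := Nat.le_of_dvd (by norm_num) (hℓp.dvd_of_dvd_pow h); omega)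
    simpa using this
  have hk3 : 3 ≤ ℓ - 1 := by omega
  obtain ⟨aE, haE, haE0, haEn⟩ := exists_hasse_series A' hℓp h5 hA' hk3
  obtain ⟨FE, hEw, hEe⟩ := exists_poly A' h1728A (ℓ - 1) ((ℓ - 1 : ℕ) : ℤ) (by simp)
    (E hk3) aE haE
  have hred_aE : aE.map red = 1 := by
    ext n
    rw [PowerSeries.coeff_map, PowerSeries.coeff_one]
    split_ifs with hn0
    · rw [hn0, haE0, map_one]
    · obtain ⟨y, hy⟩ := haEn n (by omega)
      rw [hy, map_mul, map_natCast, CharP.cast_eq_zero, zero_mul]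
  refine ⟨MvPolynomial.map red FE, isWeightedHomogeneous_map red hEw, ?_⟩
  rw [← map_QA_RA A' red, aeval_map_powerSeries]
  exact (congrArg (PowerSeries.map red) hEe).trans hred_aE

/-- **the Hasse invariant on the `j`-line.** -/
theorem exists_hasse_factorization (hA : A.LiesOverPrime ℓ) (h5 : 5 ≤ ℓ) {m d e : ℕ}
    (hmde : ℓ - 1 = 12 * m + 4 * d + 6 * e) (hd : d ≤ 1) (he : e ≤ 1) :
    ∃ b : Polynomial (kRes A), b.Monic ∧ b.natDegree = m ∧ b.eval 0 ≠ 0 ∧ b.eval 1728 ≠ 0 ∧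
      (∀ a : kRes A, ¬ (Polynomial.X - Polynomial.C a) ^ 2 ∣ b) ∧
      jqModC (kRes A) ^ (4 * d) * (jqModC (kRes A) - 1728) ^ (6 * e) *
        (Polynomial.aeval (jqModC (kRes A)) b) ^ 12 * DeltaQ (kRes A) ^ (ℓ - 1) = 1 := by
  have hℓp : ℓ.Prime := Fact.out
  haveI := Gink.charP_kRes A hA
  have h1728 : (1728 : kRes A) ≠ 0 := by
    have h := Gink.natCast_ne_zero_kRes (A := A) hA (n := 1728) (fun hdvd => by
      have h2 : ℓ ∣ 2 ^ 6 * 3 ^ 3 := by norm_num; exact hdvd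
      rcases (Nat.Prime.dvd_mul hℓp).mp h2 with h | h
      · have := Nat.le_of_dvd (by norm_num) (hℓp.dvd_of_dvd_pow h); omega
      · have := Nat.le_of_dvd (by norm_num) (hℓp.dvd_of_dvd_pow h); omega)
    intro h0
    apply h
    rw [← h0]
    norm_num
  obtain ⟨AH, hAH, hAH1⟩ := exists_hasse_kRes A hA h5
  set D := rdata (kRes A) h1728 with hD
  have hev : D.ev AH = 1 := hAH1
  have hsq : ∀ C : MvPolynomial (Fin 2) (kRes A), Prime C → ¬ C ^ 2 ∣ AH :=
    fun C hC => RData.squarefree_hasse D h5 hAH hev hC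
  have h11 : ev11 AH = 1 := by
    rw [← RData.constantCoeff_ev D, hev, map_one]
  have hF : Iso AH (12 * m + 4 * d + 6 * e) := hmde ▸ hAH
  obtain ⟨hmon, hdeg⟩ := monic_deh hd he hF h11
  obtain ⟨hb0, hb1, hbsq⟩ := deh_props h1728 hd he hF h11 hsq
  refine ⟨deh d e AH, hmon, hdeg, hb0, hb1, hbsq, ?_⟩
  have hδ : phiL (kRes A) DlN ≠ 0 := by
    rw [phiL_DlN _ h1728]; exact DeltaQ_ne_zero _
  have hstar := phi_eq_deh (phiL (kRes A)) h1728 hδ hd he hF
  have hjΔ := jphi_mul (phiL (kRes A)) hδ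
  have hj1728 := jphi_sub_mul (phiL (kRes A)) h1728 hδ
  rw [phiL_eq, hAH1, map_one] at hstar
  rw [jphi_phiL _ h1728, phiL_DlN _ h1728] at hstar hjΔ hj1728
  set j := jqModC (kRes A) with hj
  set Δ := DeltaQ (kRes A) with hΔ
  set Qs := phiL (kRes A) XX with hQs
  set Rs := phiL (kRes A) YY with hRs
  set B := Polynomial.aeval j (deh d e AH) with hB
  have e1 : (j * Δ) ^ (4 * d) = Qs ^ (12 * d) := by
    rw [hjΔ, ← pow_mul]; congr 1; ring
  have e2 : ((j - 1728) * Δ) ^ (6 * e) = Rs ^ (12 * e) := by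
    rw [hj1728, ← pow_mul]; congr 1; ring
  calc j ^ (4 * d) * (j - 1728) ^ (6 * e) * B ^ 12 * Δ ^ (ℓ - 1)
      = (j * Δ) ^ (4 * d) * ((j - 1728) * Δ) ^ (6 * e) * Δ ^ (12 * m) * B ^ 12 := by
        rw [hmde, mul_pow, mul_pow]; ring
    _ = (Qs ^ d * Rs ^ e * Δ ^ m * B) ^ 12 := by rw [e1, e2]; ring
    _ = 1 := by rw [← hstar, one_pow]

end Residue

end Fermat.Agent.LSb.Count
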