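/-
LSb / Count / Numerics  (helper5)

Pure arithmetic for brick B6 (N4, the count of the nodes): multiplicativity of `ν₂`, `ν₃`, the cusp
count and `ψ` along multiplication by a prime `q ∤ M`, and the closed form of
`s₀ = g(Mq) - 2 g(M) + 1` (in terms of `ModularCurve.genusFormula`).
-/
import Mathlib
import Fermat.Prelude.Def_ModularCurve_GenusNumerics
import Fermat.Agent.ProgramR.Counting.Psi

set_option autoImplicit false
set_option linter.style.haveILetI false

noncomputable section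

namespace Fermat.Agent.LSb.Count

open ModularCurve

/-! ### Chinese remainder theorem for root counts -/

/-- roots of `x² + 1` are multiplicative along coprime moduli. -/
theorem nuTwo_mul_of_coprime {m n : ℕ} (h : m.Coprime n) :
    nuTwo (m * n) = nuTwo m * nuTwo n := by
  unfold nuTwo
  rw [← Nat.card_prod]
  refine Nat.card_congr ?_
  refine ((ZMod.chineseRemainder h).toEquiv.subtypeEquiv (p := fun x => x ^ 2 + 1 = 0)
    (q := fun c : ZMod m × ZMod n => c.1 ^ 2 + 1 = 0 ∧ c.2 ^ 2 + 1 = 0) ?_).trans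
    (Equiv.subtypeProdEquivProd (p := fun a : ZMod m => a ^ 2 + 1 = 0)
      (q := fun b : ZMod n => b ^ 2 + 1 = 0))
  intro x
  constructor
  · intro hx
    have h1 := congrArg (ZMod.chineseRemainder h) hx
    rw [map_add, map_pow, map_one, map_zero] at h1
    exact ⟨congrArg Prod.fst h1, congrArg Prod.snd h1⟩
  · rintro ⟨h1, h2⟩
    apply (ZMod.chineseRemainder h).injective
    rw [map_add, map_pow, map_one, map_zero]
    exact Prod.ext h1 h2

/-- roots of `x² + x + 1` are multiplicative along coprime moduli. -/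
theorem nuThree_mul_of_coprime {m n : ℕ} (h : m.Coprime n) :
    nuThree (m * n) = nuThree m * nuThree n := by
  unfold nuThree
  rw [← Nat.card_prod]
  refine Nat.card_congr ?_
  refine ((ZMod.chineseRemainder h).toEquiv.subtypeEquiv (p := fun x => x ^ 2 + x + 1 = 0)
    (q := fun c : ZMod m × ZMod n => c.1 ^ 2 + c.1 + 1 = 0 ∧ c.2 ^ 2 + c.2 + 1 = 0) ?_).trans
    (Equiv.subtypeProdEquivProd (p := fun a : ZMod m => a ^ 2 + a + 1 = 0)
      (q := fun b : ZMod n => b ^ 2 + b + 1 = 0))
  intro x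
  constructor
  · intro hx
    have h1 := congrArg (ZMod.chineseRemainder h) hx
    rw [map_add, map_add, map_pow, map_one, map_zero] at h1
    exact ⟨congrArg Prod.fst h1, congrArg Prod.snd h1⟩
  · rintro ⟨h1, h2⟩
    apply (ZMod.chineseRemainder h).injective
    rw [map_add, map_add, map_pow, map_one, map_zero]
    exact Prod.ext h1 h2

/-! ### The cusp count -/

theorem cuspCount_mul_prime_of_not_dvd {M q : ℕ} (hM : M ≠ 0) (hq : q.Prime) (hqM : ¬ q ∣ M) :
    cuspCount (M * q) = 2 * cuspCount M := by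
  unfold cuspCount
  have hMq : M * q ≠ 0 := mul_ne_zero hM hq.ne_zero
  rw [← Finset.sum_filter_add_sum_filter_not (M * q).divisors (fun d => q ∣ d)]
  -- the part with `q ∤ d`
  have h2 : (M * q).divisors.filter (fun d => ¬ q ∣ d) = M.divisors := by
    ext d
    simp only [Finset.mem_filter, Nat.mem_divisors]
    constructor
    · rintro ⟨⟨hd, -⟩, hqd⟩
      have hcop : Nat.Coprime d q := (Nat.Coprime.symm ((Nat.Prime.coprime_iff_not_dvd hq).2 hqd))
      exact ⟨hcop.dvd_of_dvd_mul_right hd, hM⟩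
    · rintro ⟨hd, -⟩
      exact ⟨⟨hd.mul_right q, hMq⟩, fun h => hqM (h.trans hd)⟩
  -- the part with `q ∣ d`
  have h1 : (M * q).divisors.filter (fun d => q ∣ d) = M.divisors.image (· * q) := by
    ext d
    simp only [Finset.mem_filter, Nat.mem_divisors, Finset.mem_image]
    constructor
    · rintro ⟨⟨hd, -⟩, ⟨d', rfl⟩⟩
      refine ⟨d', ⟨?_, hM⟩, mul_comm _ _⟩
      have : q * d' ∣ q * M := by rwa [mul_comm q M]
      exact (Nat.mul_dvd_mul_iff_left hq.pos).1 this
    · rintro ⟨d', ⟨hd', -⟩, rfl⟩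
      exact ⟨⟨Nat.mul_dvd_mul_right hd' q, hMq⟩, Dvd.intro_left _ rfl⟩
  rw [h1, h2, Finset.sum_image (fun a _ b _ hab => Nat.eq_of_mul_eq_mul_right hq.pos hab), two_mul]
  congr 1
  · refine Finset.sum_congr rfl fun d hd => ?_
    rw [Nat.mem_divisors] at hd
    obtain ⟨e, he⟩ := hd.1
    have hd0 : 0 < d := Nat.pos_of_ne_zero (by rintro rfl; rw [zero_mul] at he; exact hM he)
    have hqe : ¬ q ∣ e := fun h => hqM (he ▸ h.mul_left d)
    have h3 : M * q / (d * q) = e := by
      rw [he, mul_assoc, mul_comm e q, ← mul_assoc]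
      exact Nat.mul_div_cancel_left _ (Nat.mul_pos hd0 hq.pos)
    have h4 : M / d = e := by rw [he]; exact Nat.mul_div_cancel_left _ hd0
    rw [h3, h4]
    congr 1
    exact Nat.Coprime.gcd_mul_right_cancel d ((Nat.Prime.coprime_iff_not_dvd hq).2 hqe)
  · refine Finset.sum_congr rfl fun d hd => ?_
    rw [Nat.mem_divisors] at hd
    obtain ⟨e, he⟩ := hd.1
    have hd0 : 0 < d := Nat.pos_of_ne_zero (by rintro rfl; rw [zero_mul] at he; exact hM he)
    have hqd : ¬ q ∣ d := fun h => hqM (h.trans hd.1)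
    have h3 : M * q / d = e * q := by
      rw [he, mul_assoc]
      exact Nat.mul_div_cancel_left _ hd0
    have h4 : M / d = e := by rw [he]; exact Nat.mul_div_cancel_left _ hd0
    rw [h3, h4]
    congr 1
    exact Nat.Coprime.gcd_mul_right_cancel_right e ((Nat.Prime.coprime_iff_not_dvd hq).2 hqd)

/-! ### Roots modulo a prime and the final arithmetic -/

theorem two_le_card_of_ne {α : Type*} [Finite α] (a b : α) (h : a ≠ b) : 2 ≤ Nat.card α := by
  have h2 : Nat.card (Fin 2) ≤ Nat.card α :=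
    Nat.card_le_card_of_injective ![a, b] (by
      intro i j hij
      fin_cases i <;> fin_cases j <;> simp_all)
  simpa using h2

/-- `x² + 1` has (at least) two roots modulo a prime `q ≡ 1 (4)`. -/
theorem two_le_nuTwo_of_mod_four {q : ℕ} (hq : q.Prime) (h : q % 4 = 1) : 2 ≤ nuTwo q := by
  haveI : Fact q.Prime := ⟨hq⟩
  unfold nuTwo
  obtain ⟨y, hy⟩ := (ZMod.exists_sq_eq_neg_one_iff (p := q)).mpr (by omega)
  have hy1 : y ^ 2 + 1 = 0 := by rw [pow_two, ← hy]; ring
  have hy2 : (-y) ^ 2 + 1 = 0 := by rw [neg_sq]; exact hy1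
  have h2 : (2 : ZMod q) ≠ 0 := by
    intro h0
    have h3 : ((2 : ℕ) : ZMod q) = 0 := by exact_mod_cast h0
    rw [ZMod.natCast_eq_zero_iff] at h3
    have := Nat.le_of_dvd (by norm_num) h3
    have := hq.two_le
    interval_cases q
    omega
  have hne : y ≠ -y := by
    intro hyy
    have h3 : (2 : ZMod q) * y = 0 := by linear_combination hyy
    rcases mul_eq_zero.mp h3 with h4 | h4
    · exact h2 h4
    · rw [h4] at hy1
      simp at hy1
  exact two_le_card_of_ne (⟨y, hy1⟩ : {x : ZMod q // x ^ 2 + 1 = 0}) ⟨-y, hy2⟩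
    (fun h => hne (congrArg Subtype.val h))

/-- `x² + x + 1` has (at least) two roots modulo a prime `q ≡ 1 (3)`. -/
theorem two_le_nuThree_of_mod_three {q : ℕ} (hq : q.Prime) (h : q % 3 = 1) : 2 ≤ nuThree q := by
  haveI : Fact q.Prime := ⟨hq⟩
  unfold nuThree
  have hcard : 3 ∣ Nat.card (ZMod q)ˣ := by
    rw [Nat.card_eq_fintype_card, ZMod.card_units_eq_totient, Nat.totient_prime hq]
    omega
  haveI : Fact (Nat.Prime 3) := ⟨Nat.prime_three⟩
  obtain ⟨u, hu⟩ := exists_prime_orderOf_dvd_card' (G := (ZMod q)ˣ) 3 hcard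
  set x : ZMod q := (u : ZMod q) with hx
  have hx3 : x ^ 3 = 1 := by
    have := pow_orderOf_eq_one u
    rw [hu] at this
    have := congrArg Units.val this
    simpa using this
  have hx1 : x ≠ 1 := by
    intro h1
    have : u = 1 := Units.val_eq_one.mp h1
    rw [this, orderOf_one] at hu
    omega
  have hx0 : x ≠ 0 := u.ne_zero
  have hroot : x ^ 2 + x + 1 = 0 := by
    have h1 : (x - 1) * (x ^ 2 + x + 1) = 0 := by linear_combination hx3
    exact (mul_eq_zero.mp h1).resolve_left (sub_ne_zero.mpr hx1)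
  have hroot2 : (x ^ 2) ^ 2 + x ^ 2 + 1 = 0 := by
    linear_combination (x ^ 2 - x + 1) * hroot
  have hne : x ≠ x ^ 2 := by
    intro hxx
    have h1 : x * (x - 1) = 0 := by linear_combination -hxx
    rcases mul_eq_zero.mp h1 with h2 | h2
    · exact hx0 h2
    · exact hx1 (sub_eq_zero.mp h2)
  exact two_le_card_of_ne (⟨x, hroot⟩ : {x : ZMod q // x ^ 2 + x + 1 = 0}) ⟨x ^ 2, hroot2⟩
    (fun h => hne (congrArg Subtype.val h))

/-- **The arithmetic of the count** (`q ≥ 5`).  `z₀`, `z₁` are the cardinalities of the fibres of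
`j̄` over `0` and `1728` on `X₀(M)` in characteristic `q`, and `q - 1 = 12 m + 4 d + 6 e` with
`d = [q ≡ 2 (3)]`, `e = [q ≡ 3 (4)]`. -/
theorem count_numerics {M q : ℕ} (hM : M ≠ 0) (hq : q.Prime) (h5 : 5 ≤ q) (hqM : ¬ q ∣ M)
    {g gM s z0 z1 m d e : ℕ}
    (hg : (g : ℚ) = genusFormula (M * q)) (hgM : (gM : ℚ) = genusFormula M)
    (hz0 : 3 * z0 = dedekindPsi M + 2 * nuThree M) (hz1 : 2 * z1 = dedekindPsi M + nuTwo M)
    (hmde : q - 1 = 12 * m + 4 * d + 6 * e)
    (hd : d = if q % 3 = 2 then 1 else 0) (he : e = if q % 4 = 3 then 1 else 0)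
    (hs : m * dedekindPsi M + d * z0 + e * z1 ≤ s) :
    g + 1 ≤ 2 * gM + s := by
  have hcop : Nat.Coprime M q := (Nat.Coprime.symm ((Nat.Prime.coprime_iff_not_dvd hq).2 hqM))
  have hψ := Fermat.Agent.ProgramR.dedekindPsi_mul_prime_of_not_dvd hM hq hqM
  have hc := cuspCount_mul_prime_of_not_dvd hM hq hqM
  have h2 := nuTwo_mul_of_coprime hcop
  have h3 := nuThree_mul_of_coprime hcop
  unfold genusFormula at hg hgM
  rw [hψ, hc, h2, h3] at hg
  push_cast at hg
  have hq3 : q % 3 = 1 ∨ q % 3 = 2 := by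
    have : q % 3 ≠ 0 := by
      intro h0
      have := (Nat.prime_dvd_prime_iff_eq Nat.prime_three hq).mp (Nat.dvd_of_mod_eq_zero h0)
      omega
    omega
  have hq4 : q % 4 = 1 ∨ q % 4 = 3 := by
    have hodd := hq.eq_two_or_odd
    omega
  -- the two products
  have hP2 : (0 : ℚ) ≤ (nuTwo M : ℚ) * nuTwo q := by positivity
  have hP3 : (0 : ℚ) ≤ (nuThree M : ℚ) * nuThree q := by positivity
  have hP2' : q % 4 = 1 → 2 * (nuTwo M : ℚ) ≤ (nuTwo M : ℚ) * nuTwo q := by
    intro h1
    have := two_le_nuTwo_of_mod_four hq h1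
    have h' : (2 : ℚ) ≤ nuTwo q := by exact_mod_cast this
    nlinarith [Nat.cast_nonneg (α := ℚ) (nuTwo M)]
  have hP3' : q % 3 = 1 → 2 * (nuThree M : ℚ) ≤ (nuThree M : ℚ) * nuThree q := by
    intro h1
    have := two_le_nuThree_of_mod_three hq h1
    have h' : (2 : ℚ) ≤ nuThree q := by exact_mod_cast this
    nlinarith [Nat.cast_nonneg (α := ℚ) (nuThree M)]
  have hz0' : (3 : ℚ) * z0 = dedekindPsi M + 2 * nuThree M := by exact_mod_cast hz0
  have hz1' : (2 : ℚ) * z1 = dedekindPsi M + nuTwo M := by exact_mod_cast hz1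
  have hs' : (m : ℚ) * dedekindPsi M + d * z0 + e * z1 ≤ s := by exact_mod_cast hs
  have hq1 : ((q : ℚ) - 1) = 12 * m + 4 * d + 6 * e := by
    have : ((q - 1 : ℕ) : ℚ) = ((12 * m + 4 * d + 6 * e : ℕ) : ℚ) := by rw [hmde]
    rw [Nat.cast_sub (by omega)] at this
    push_cast at this
    exact this
  have goal : (g : ℚ) + 1 ≤ 2 * gM + s := by
    rcases hq3 with h31 | h32 <;> rcases hq4 with h41 | h43
    · have hd0 : (d : ℚ) = 0 := by rw [hd, if_neg (by omega)]; simp
      have he0 : (e : ℚ) = 0 := by rw [he, if_neg (by omega)]; simp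
      have := hP2' h41
      have := hP3' h31
      rw [hd0, he0] at hs' hq1
      nlinarith
    · have hd0 : (d : ℚ) = 0 := by rw [hd, if_neg (by omega)]; simp
      have he1 : (e : ℚ) = 1 := by rw [he, if_pos h43]; simp
      have := hP3' h31
      rw [hd0, he1] at hs' hq1
      nlinarith
    · have hd1 : (d : ℚ) = 1 := by rw [hd, if_pos h32]; simp
      have he0 : (e : ℚ) = 0 := by rw [he, if_neg (by omega)]; simp
      have := hP2' h41
      rw [hd1, he0] at hs' hq1
      nlinarith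
    · have hd1 : (d : ℚ) = 1 := by rw [hd, if_pos h32]; simp
      have he1 : (e : ℚ) = 1 := by rw [he, if_pos h43]; simp
      rw [hd1, he1] at hs' hq1
      nlinarith
  exact_mod_cast goal

end Fermat.Agent.LSb.Count
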