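/-
LSb / Count / Zeros  (helper5)

Zeros of a polynomial `P(x)` in a function field: for every root `a` of `P` the zeros of `x - a`
are zeros of `P(x)`, the fibres over different `a` are disjoint, hence
`∑_{a ∈ R} #Z(x - a) ≤ #Z(P(x))` for every finite set `R` of roots of `P`.
-/
import Mathlib
import Fermat.Agent.S18lib.Tame.Count

set_option autoImplicit false

noncomputable section

namespace Fermat.Agent.LSb.Count

open AlgebraicCurve Polynomial Fermat.Agent.S18lib

variable {K F : Type*} [Field K] [Field F] [Algebra K F]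

theorem aeval_mem_of_mem (v : Place K F) {x : F} (hx : x ∈ v.toValuationSubring) (P : K[X]) :
    aeval x P ∈ v.toValuationSubring := by
  rw [aeval_eq_sum_range]
  refine sum_mem fun i _ => ?_
  rw [Algebra.smul_def]
  exact mul_mem (v.algebraMap_mem' _) (pow_mem hx i)

/-- zeros of `x - a` are zeros of `P(x)` for every root `a` of `P`. -/
theorem zerosOf_sub_subset (x : F) (P : K[X]) (hP : aeval x P ≠ 0) {a : K} (ha : P.eval a = 0) :
    Tame.zerosOf (K := K) (x - algebraMap K F a) ⊆ Tame.zerosOf (K := K) (aeval x P) := by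
  intro v hv
  rw [Tame.mem_zerosOf] at hv ⊢
  obtain ⟨P', hP'⟩ := dvd_iff_isRoot.mpr ha
  have e : aeval x P = (x - algebraMap K F a) * aeval x P' := by
    rw [hP', map_mul, map_sub, aeval_X, aeval_C]
  have h1 : x - algebraMap K F a ≠ 0 := by
    intro h0
    rw [h0, Place.ord_zero] at hv
    exact lt_irrefl _ hv
  have h2 : aeval x P' ≠ 0 := by
    intro h0
    exact hP (by rw [e, h0, mul_zero])
  have hxmem : x ∈ v.toValuationSubring := by
    have h3 : x - algebraMap K F a ∈ v.toValuationSubring :=
      (Tame.ord_nonneg_iff_mem v h1).mp hv.le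
    have := add_mem h3 (v.algebraMap_mem' a)
    rwa [sub_add_cancel] at this
  have h3 : 0 ≤ v.ord (aeval x P') :=
    (Tame.ord_nonneg_iff_mem v h2).mpr (aeval_mem_of_mem v hxmem P')
  rw [e, v.ord_mul h1 h2]
  omega

/-- the fibres of `x` over two different values are disjoint. -/
theorem disjoint_zerosOf_sub (x : F) {a a' : K} (h : a ≠ a') :
    Disjoint (Tame.zerosOf (K := K) (x - algebraMap K F a))
      (Tame.zerosOf (K := K) (x - algebraMap K F a')) := by
  rw [Set.disjoint_left]
  intro v hv hv'
  rw [Tame.mem_zerosOf] at hv hv'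
  have hc : a' - a ≠ 0 := sub_ne_zero.mpr h.symm
  have hc' : algebraMap K F (a' - a) ≠ 0 := (_root_.map_ne_zero _).mpr hc
  have hu' : x - algebraMap K F a' ≠ 0 := by
    intro h0
    rw [h0, Place.ord_zero] at hv'
    exact lt_irrefl _ hv'
  have hlt : v.ord (algebraMap K F (a' - a)) < v.ord (x - algebraMap K F a') := by
    rw [Tame.ord_const v hc]; exact hv'
  have := Tame.ord_add_eq_of_lt v hc' hu' hlt
  rw [Tame.ord_const v hc] at this
  have e : algebraMap K F (a' - a) + (x - algebraMap K F a') = x - algebraMap K F a := by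
    rw [map_sub]; ring
  rw [e] at this
  omega

/-- `v(f) < 1 ↔ ord_v f > 0` for `f ≠ 0`. -/
theorem adicValuation_lt_one_iff (v : Place K F) {f : F} (hf : f ≠ 0) :
    v.adicValuation f < 1 ↔ 0 < v.ord f := by
  have h1 : (1 : WithZero (Multiplicative ℤ)) = WithZero.exp (0 : ℤ) := rfl
  rw [v.adicValuation_eq_exp_neg_ord hf, h1, WithZero.exp_lt_exp]
  omega

/-- **counting fibres inside a finite set of places.** -/
theorem sum_card_zerosOf_le_card [HasPrincipalDivisors K F] (x : F) (R : Finset K)
    (T : Set (Place K F)) (hT : T.Finite)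
    (hsub : ∀ a ∈ R, Tame.zerosOf (K := K) (x - algebraMap K F a) ⊆ T) :
    ∑ a ∈ R, Nat.card (Tame.zerosOf (K := K) (x - algebraMap K F a)) ≤ Nat.card T := by
  classical
  set Z : K → Finset (Place K F) := fun a =>
    (Tame.finite_zerosOf (K := K) (x - algebraMap K F a)).toFinset with hZ
  have hcard : ∀ a, Nat.card (Tame.zerosOf (K := K) (x - algebraMap K F a)) = (Z a).card :=
    fun a => Nat.card_eq_card_finite_toFinset _
  have hcardT : Nat.card T = hT.toFinset.card := Nat.card_eq_card_finite_toFinset _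
  rw [hcardT, Finset.sum_congr rfl fun a _ => hcard a, ← Finset.card_biUnion]
  · refine Finset.card_le_card fun v hv => ?_
    rw [Finset.mem_biUnion] at hv
    obtain ⟨a, haR, hva⟩ := hv
    rw [Set.Finite.mem_toFinset] at hva ⊢
    exact hsub a haR hva
  · intro a _ a' _ haa'
    rw [Function.onFun, ← Finset.disjoint_coe, hZ]
    simp only [Set.Finite.coe_toFinset]
    exact disjoint_zerosOf_sub x haa'

/-- **counting zeros of `P(x)` fibrewise.** -/
theorem sum_card_zerosOf_le [HasPrincipalDivisors K F] (x : F) (P : K[X]) (hP : aeval x P ≠ 0)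
    (R : Finset K) (hR : ∀ a ∈ R, P.eval a = 0) :
    ∑ a ∈ R, Nat.card (Tame.zerosOf (K := K) (x - algebraMap K F a)) ≤
      Nat.card (Tame.zerosOf (K := K) (aeval x P)) :=
  sum_card_zerosOf_le_card x R _ (Tame.finite_zerosOf _)
    fun a ha => zerosOf_sub_subset x P hP (hR a ha)

end Fermat.Agent.LSb.Count
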