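/-
LSb / Count / Main  (helper5)

**Brick B6 (COUNT), `q ≥ 5`.**  Let `q ≥ 5` be a prime, `q ∤ M`, `A ⊂ ℚ̄` a valuation ring above `q`
with residue field `k`, and `h ∈ k(X₀(M)) = FRes A M` the function with `t`-expansion `Δ̄^(1-q)`
(the reduction of the unit `Δ(τ)/Δ(qτ)`; `h = j̄^(4d) (j̄ - 1728)^(6e) b(j̄)^12` is the 12-th power of
the Hasse invariant).  Then the number `s` of zeros of `h` (= supersingular points of `X₀(M)_k`
= nodes of the special fibre of `X₀(Mq)`) satisfies

  `g(X₀(Mq)) + 1 ≤ 2 g(X₀(M)) + s`.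
-/
import Mathlib
import Fermat.Agent.LSb.Count.Numerics
import Fermat.Agent.LSb.Count.Fibre
import Fermat.Agent.LSb.Count.Zeros
import Fermat.Agent.LSb.Count.HasseSeries

set_option autoImplicit false
set_option linter.style.haveILetI false
set_option linter.unusedSectionVars false

noncomputable section

namespace Fermat.Agent.LSb.Count

open AlgebraicCurve ModularCurve Polynomial
open Fermat.Agent.ProgramR Fermat.Agent.S18lib Fermat.Agent.S28lib

variable (M : ℕ) [NeZero M] {q : ℕ} [Fact q.Prime]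
variable (A : ValuationSubring (AlgebraicClosure ℚ))

local notation "Qb" => AlgebraicClosure ℚ

/-- the decomposition `q - 1 = 12 m + 4 d + 6 e`. -/
theorem exists_mde (h5 : 5 ≤ q) :
    ∃ m d e : ℕ, q - 1 = 12 * m + 4 * d + 6 * e ∧ (d = if q % 3 = 2 then 1 else 0) ∧
      (e = if q % 4 = 3 then 1 else 0) := by
  have hq : q.Prime := Fact.out
  have h3 : q % 3 ≠ 0 := by
    intro h0
    have := (Nat.prime_dvd_prime_iff_eq Nat.prime_three hq).mp (Nat.dvd_of_mod_eq_zero h0)
    omega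
  have h2 : q % 2 = 1 := by
    rcases hq.eq_two_or_odd with h | h
    · omega
    · exact h
  refine ⟨(q - 1) / 12, if q % 3 = 2 then 1 else 0, if q % 4 = 3 then 1 else 0, ?_, rfl, rfl⟩
  split_ifs <;> omega

/-- the function `h = Δ̄^(1-q)` is a polynomial in `j̄`, with the roots described by the Hasse
polynomial. -/
theorem exists_poly_of_mul_DeltaQ (hA : A.LiesOverPrime q) (h5 : 5 ≤ q) {m d e : ℕ}
    (hmde : q - 1 = 12 * m + 4 * d + 6 * e) (hd : d ≤ 1) (he : e ≤ 1)
    (h : FRes A M)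
    (hh : ((h : FRes A M) : LaurentSeries (kRes A)) * DeltaQ (kRes A) ^ (q - 1) = 1) :
    ∃ b : Polynomial (kRes A), b.Monic ∧ b.natDegree = m ∧ b.eval 0 ≠ 0 ∧ b.eval 1728 ≠ 0 ∧
      (∀ a : kRes A, ¬ (X - C a) ^ 2 ∣ b) ∧
      h = aeval (Gink.jK A M) (X ^ (4 * d) * (X - C 1728) ^ (6 * e) * b ^ 12) := by
  obtain ⟨b, hmon, hdeg, hb0, hb1, hbsq, hfac⟩ :=
    exists_hasse_factorization A hA h5 hmde hd he
  refine ⟨b, hmon, hdeg, hb0, hb1, hbsq, ?_⟩
  apply Subtype.ext
  rw [Gink.coe_aeval_jK]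
  have hΔ : DeltaQ (kRes A) ^ (q - 1) ≠ 0 := pow_ne_zero _ (DeltaQ_ne_zero _)
  apply mul_right_cancel₀ hΔ
  rw [hh, ← hfac]
  congr 1
  simp only [evalJ, AlgHom.toRingHom_eq_coe, RingHom.coe_coe, map_mul, map_pow, map_sub, aeval_X,
    aeval_C]
  congr 2
  rw [map_ofNat]

/-- the function `Δ̄^(1-q)` lies in `k(j̄) ⊆ FRes A M` (`q ≥ 5`). -/
theorem exists_mul_DeltaQ_eq_one (hA : A.LiesOverPrime q) (h5 : 5 ≤ q) :
    ∃ h : FRes A M,
      ((h : FRes A M) : LaurentSeries (kRes A)) * DeltaQ (kRes A) ^ (q - 1) = 1 := by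
  obtain ⟨m, d, e, hmde, hd, he⟩ := exists_mde (q := q) h5
  have hd1 : d ≤ 1 := by rw [hd]; split_ifs <;> omega
  have he1 : e ≤ 1 := by rw [he]; split_ifs <;> omega
  obtain ⟨b, -, -, -, -, -, hfac⟩ := exists_hasse_factorization A hA h5 hmde hd1 he1
  refine ⟨aeval (Gink.jK A M) (X ^ (4 * d) * (X - C 1728) ^ (6 * e) * b ^ 12), ?_⟩
  rw [Gink.coe_aeval_jK, ← hfac]
  congr 1
  simp only [evalJ, AlgHom.toRingHom_eq_coe, RingHom.coe_coe, map_mul, map_pow, map_sub, aeval_X,
    aeval_C]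
  congr 2
  rw [map_ofNat]

/-- **The lower bound for the number of nodes, `q ≥ 5`**: every finite set `T` of places of
`X₀(M)_k` containing the zeros of `h` at which `j̄` is regular has at least
`m ψ(M) + d #Z(j̄) + e #Z(j̄ - 1728)` elements. -/
theorem card_lower_bound_five_le (h5 : 5 ≤ q) (hqM : ¬ q ∣ M) (hA : A.LiesOverPrime q)
    (h : FRes A M)
    (hh : ((h : FRes A M) : LaurentSeries (kRes A)) * DeltaQ (kRes A) ^ (q - 1) = 1)
    (T : Set (Place (kRes A) (FRes A M))) (hT : T.Finite)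
    (hsub : ∀ v : Place (kRes A) (FRes A M), Gink.jK A M ∈ v.toValuationSubring →
      0 < v.ord h → v ∈ T)
    {m d e : ℕ} (hmde : q - 1 = 12 * m + 4 * d + 6 * e) (hd1 : d ≤ 1) (he1 : e ≤ 1) :
    m * dedekindPsi M + d * Nat.card (Tame.zerosOf (K := kRes A) (Gink.jK A M)) +
      e * Nat.card (Tame.zerosOf (K := kRes A)
        (Gink.jK A M - algebraMap (kRes A) (FRes A M) 1728)) ≤ Nat.card T := by
  classical
  obtain ⟨b, hmon, hdeg, hb0, hb1, hbsq, hhb⟩ :=
    exists_poly_of_mul_DeltaQ M A hA h5 hmde hd1 he1 h hh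
  -- principal divisors on the characteristic-`q` curve
  have hx : Transcendental (kRes A) (Gink.jK A M) := Gink.transcendental_jK A M
  haveI : Algebra.IsSeparable (IntermediateField.adjoin (kRes A) {Gink.jK A M}) (FRes A M) :=
    Gink.isSeparable_jK A M hA hqM
  have hFk : IsCurveOfGenus (kRes A) (FRes A M) (RRgen.Canonical.genusOf (kRes A) hx) :=
    RRgen.Canonical.isCurveOfGenus_genusOf (kRes A) hx
  letI := hFk.hasPrincipalDivisors
  -- the fibre counts
  set f : kRes A → ℕ := fun a =>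
    Nat.card (Tame.zerosOf (K := kRes A) (Gink.jK A M - algebraMap (kRes A) (FRes A M) a)) with hf
  have hf0 : f 0 = Nat.card (Tame.zerosOf (K := kRes A) (Gink.jK A M)) := by
    rw [hf]
    simp only [map_zero, sub_zero]
  have hgen : ∀ a : kRes A, a ≠ 0 → a ≠ 1728 → f a = dedekindPsi M := fun a h0 h1 =>
    card_zerosOf_jK_sub M A hqM hA h5 a h0 h1
  -- the polynomial and its roots
  set P : Polynomial (kRes A) := X ^ (4 * d) * (X - C 1728) ^ (6 * e) * b ^ 12 with hP
  have hPne : aeval (Gink.jK A M) P ≠ 0 := by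
    rw [← hhb]
    rintro rfl
    rw [ZeroMemClass.coe_zero, zero_mul] at hh
    exact zero_ne_one hh
  set Rb : Finset (kRes A) := b.roots.toFinset with hRb
  have hRbcard : Rb.card = m := by rw [hRb, card_roots_of_no_double hbsq, hdeg]
  have hRbroot : ∀ a ∈ Rb, b.eval a = 0 := by
    intro a ha
    rw [hRb, Multiset.mem_toFinset] at ha
    exact (Polynomial.mem_roots hmon.ne_zero).mp ha
  set R0 : Finset (kRes A) := if d = 1 then {0} else ∅ with hR0
  set R1 : Finset (kRes A) := if e = 1 then {1728} else ∅ with hR1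
  have h1728 : (1728 : kRes A) ≠ 0 := ofNat_1728_ne_zero A hA h5
  have hdisj0 : Disjoint Rb R0 := by
    rw [Finset.disjoint_left]
    intro a ha ha0
    rw [hR0] at ha0
    split_ifs at ha0
    · rw [Finset.mem_singleton] at ha0
      exact hb0 (ha0 ▸ hRbroot a ha)
    · exact absurd ha0 (Finset.notMem_empty a)
  have hdisj1 : Disjoint (Rb ∪ R0) R1 := by
    rw [Finset.disjoint_left]
    intro a ha ha1
    rw [hR1] at ha1
    split_ifs at ha1
    · rw [Finset.mem_singleton] at ha1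
      rw [Finset.mem_union] at ha
      rcases ha with ha | ha
      · exact hb1 (ha1 ▸ hRbroot a ha)
      · rw [hR0] at ha
        split_ifs at ha
        · rw [Finset.mem_singleton] at ha
          exact h1728 (ha1.symm.trans ha)
        · exact absurd ha (Finset.notMem_empty a)
    · exact absurd ha1 (Finset.notMem_empty a)
  have hroots : ∀ a ∈ Rb ∪ R0 ∪ R1, P.eval a = 0 := by
    intro a ha
    rw [hP, eval_mul, eval_mul, eval_pow, eval_pow, eval_pow, eval_sub, eval_X, eval_C]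
    rw [Finset.mem_union, Finset.mem_union] at ha
    rcases ha with (ha | ha) | ha
    · rw [hRbroot a ha, zero_pow (by norm_num), mul_zero]
    · rw [hR0] at ha
      split_ifs at ha with hd'
      · rw [Finset.mem_singleton] at ha
        rw [ha, hd', zero_pow (by norm_num), zero_mul, zero_mul]
      · exact absurd ha (Finset.notMem_empty a)
    · rw [hR1] at ha
      split_ifs at ha with he'
      · rw [Finset.mem_singleton] at ha
        rw [ha, he', sub_self, zero_pow (by norm_num), mul_zero, zero_mul]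
      · exact absurd ha (Finset.notMem_empty a)
  -- every fibre over a root lies in `T`
  have hfib : ∀ a ∈ Rb ∪ R0 ∪ R1,
      Tame.zerosOf (K := kRes A) (Gink.jK A M - algebraMap (kRes A) (FRes A M) a) ⊆ T := by
    intro a ha v hv
    have hv' := zerosOf_sub_subset (Gink.jK A M) P hPne (hroots a ha) hv
    rw [← hhb] at hv'
    refine hsub v ?_ hv'
    rw [Tame.mem_zerosOf] at hv
    have h1 : Gink.jK A M - algebraMap (kRes A) (FRes A M) a ≠ 0 := by
      intro h0
      rw [h0, Place.ord_zero] at hv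
      exact lt_irrefl _ hv
    have h3 := (Tame.ord_nonneg_iff_mem v h1).mp hv.le
    have := add_mem h3 (v.algebraMap_mem' a)
    rwa [sub_add_cancel] at this
  have hsum := sum_card_zerosOf_le_card (K := kRes A) (Gink.jK A M) (Rb ∪ R0 ∪ R1) T hT hfib
  rw [Finset.sum_union hdisj1, Finset.sum_union hdisj0] at hsum
  have hs1 : ∑ a ∈ Rb, f a = m * dedekindPsi M := by
    rw [← hRbcard, ← smul_eq_mul, ← Finset.sum_const]
    refine Finset.sum_congr rfl fun a ha => ?_
    refine hgen a ?_ ?_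
    · rintro rfl; exact hb0 (hRbroot 0 ha)
    · rintro rfl; exact hb1 (hRbroot 1728 ha)
  have hs2 : ∑ a ∈ R0, f a = d * f 0 := by
    rw [hR0]
    rcases Nat.le_one_iff_eq_zero_or_eq_one.mp hd1 with h0 | h0
    · rw [h0]; simp
    · rw [h0]; simp
  have hs3 : ∑ a ∈ R1, f a = e * f 1728 := by
    rw [hR1]
    rcases Nat.le_one_iff_eq_zero_or_eq_one.mp he1 with h0 | h0
    · rw [h0]; simp
    · rw [h0]; simp
  rw [← hf0, ← hs1, ← hs2, ← hs3]
  exact hsum

/-- **COUNT for `q ≥ 5`**, general form: any finite set `T` of places containing the zeros of `h`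
at which `j̄` is regular. Also `T` is nonempty. -/
theorem count_five_le_set [NeZero (M * q)] (h5 : 5 ≤ q) (hqM : ¬ q ∣ M) (hA : A.LiesOverPrime q)
    (h : FRes A M)
    (hh : ((h : FRes A M) : LaurentSeries (kRes A)) * DeltaQ (kRes A) ^ (q - 1) = 1)
    (T : Set (Place (kRes A) (FRes A M))) (hT : T.Finite)
    (hsub : ∀ v : Place (kRes A) (FRes A M), Gink.jK A M ∈ v.toValuationSubring →
      0 < v.ord h → v ∈ T)
    {g gM : ℕ} (hg : IsCurveOfGenus Qb (FBar (M * q)) g) (hgM : IsCurveOfGenus Qb (FBar M) gM) :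
    g + 1 ≤ 2 * gM + Nat.card T ∧ 0 < Nat.card T := by
  have hq : q.Prime := Fact.out
  have hM : M ≠ 0 := NeZero.ne M
  obtain ⟨m, d, e, hmde, hd, he⟩ := exists_mde (q := q) h5
  have hd1 : d ≤ 1 := by rw [hd]; split_ifs <;> omega
  have he1 : e ≤ 1 := by rw [he]; split_ifs <;> omega
  have hs := card_lower_bound_five_le M A h5 hqM hA h hh T hT hsub hmde hd1 he1
  -- the genera
  have hgF : (g : ℚ) = genusFormula (M * q) := by
    obtain ⟨g', hF', hRH'⟩ := Gin0.exists_isCurveOfGenus_FBar (M * q)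
    rw [RRgen.Canonical.genus_unique hg hF']
    exact Gin0.genus_eq_genusFormula (M * q) hRH'
  have hgMF : (gM : ℚ) = genusFormula M := by
    obtain ⟨g', hF', hRH'⟩ := Gin0.exists_isCurveOfGenus_FBar M
    rw [RRgen.Canonical.genus_unique hgM hF']
    exact Gin0.genus_eq_genusFormula M hRH'
  have hz0 := three_mul_card_zerosOf_jK M A hqM hA h5
  have hz1 := two_mul_card_zerosOf_jK_sub M A hqM hA h5
  refine ⟨count_numerics hM hq h5 hqM hgF hgMF hz0 hz1 hmde hd he hs, ?_⟩
  have hψ : 0 < dedekindPsi M := BarField.dedekindPsi_pos M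
  have hmde0 : 0 < m + d + e := by omega
  have h0 : 0 < Nat.card (Tame.zerosOf (K := kRes A) (Gink.jK A M)) := by omega
  have h1 : 0 < Nat.card (Tame.zerosOf (K := kRes A)
      (Gink.jK A M - algebraMap (kRes A) (FRes A M) 1728)) := by omega
  rcases Nat.eq_zero_or_pos m with hm0 | hm0
  · rcases Nat.eq_zero_or_pos d with hd0 | hd0
    · have he0 : 0 < e := by omega
      have := Nat.mul_pos he0 h1
      omega
    · have := Nat.mul_pos hd0 h0
      omega
  · have := Nat.mul_pos hm0 hψ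
    omega

/-- **COUNT for `q ≥ 5`**, characteristic-zero genera. -/
theorem count_five_le [NeZero (M * q)] (h5 : 5 ≤ q) (hqM : ¬ q ∣ M) (hA : A.LiesOverPrime q)
    (h : FRes A M)
    (hh : ((h : FRes A M) : LaurentSeries (kRes A)) * DeltaQ (kRes A) ^ (q - 1) = 1)
    {g gM : ℕ} (hg : IsCurveOfGenus Qb (FBar (M * q)) g) (hgM : IsCurveOfGenus Qb (FBar M) gM) :
    g + 1 ≤ 2 * gM + Nat.card (Tame.zerosOf (K := kRes A) h) := by
  have hx : Transcendental (kRes A) (Gink.jK A M) := Gink.transcendental_jK A M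
  haveI : Algebra.IsSeparable (IntermediateField.adjoin (kRes A) {Gink.jK A M}) (FRes A M) :=
    Gink.isSeparable_jK A M hA hqM
  have hFk : IsCurveOfGenus (kRes A) (FRes A M) (RRgen.Canonical.genusOf (kRes A) hx) :=
    RRgen.Canonical.isCurveOfGenus_genusOf (kRes A) hx
  letI := hFk.hasPrincipalDivisors
  exact (count_five_le_set M A h5 hqM hA h hh _ (Tame.finite_zerosOf _)
    (fun v _ hv => hv) hg hgM).1

/-- **COUNT for `q ≥ 5`**, with the genus of the characteristic-`q` curve `X₀(M)_k` (the form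
consumed by the nodal datum: `g + 1 ≤ g₁ + g₂ + s` with `g₁ = g₂ = g(FRes A M)`). -/
theorem count_five_le' [NeZero (M * q)] (h5 : 5 ≤ q) (hqM : ¬ q ∣ M) (hA : A.LiesOverPrime q)
    (h : FRes A M)
    (hh : ((h : FRes A M) : LaurentSeries (kRes A)) * DeltaQ (kRes A) ^ (q - 1) = 1)
    {g g₁ : ℕ} (hg : IsCurveOfGenus Qb (FBar (M * q)) g)
    (hg₁ : IsCurveOfGenus (kRes A) (FRes A M) g₁) :
    g + 1 ≤ g₁ + g₁ + Nat.card (Tame.zerosOf (K := kRes A) h) := by
  obtain ⟨g', hF', hFk'⟩ := G.exists_genus_of_five_le M A hqM hA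
    (S37lib.B3.reductionInputsModL M A hqM hA) h5
  have := count_five_le M A h5 hqM hA h hh hg hF'
  rw [RRgen.Canonical.genus_unique hg₁ hFk']
  omega

end Fermat.Agent.LSb.Count
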